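import Mathlib

/-!
# Row LT, tower T2, leaf T2.06 (helper907): 2×2 complex matrices

`frob907 M = ∑ |M i j|²` (the square of the Frobenius norm), its invariance under unitary
matrices and under inversion (after division by `|det M|`), the inequality
`2 |det M| ≤ frob907 M` and its equality case `M Mᴴ = |det M| • 1`.

Mathlib only.
-/

open Matrix

noncomputable section

namespace Fermat.Agent.LT.T2.H907

/-- The square of the Frobenius norm of a `2 × 2` complex matrix. -/
def frob907 (M : Matrix (Fin 2) (Fin 2) ℂ) : ℝ := ∑ i, ∑ j, Complex.normSq (M i j)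

theorem frob907_eq (M : Matrix (Fin 2) (Fin 2) ℂ) :
    frob907 M = Complex.normSq (M 0 0) + Complex.normSq (M 0 1)
      + (Complex.normSq (M 1 0) + Complex.normSq (M 1 1)) := by
  simp [frob907, Fin.sum_univ_two]

theorem frob907_nonneg (M : Matrix (Fin 2) (Fin 2) ℂ) : 0 ≤ frob907 M :=
  Finset.sum_nonneg fun _ _ => Finset.sum_nonneg fun _ _ => Complex.normSq_nonneg _

theorem frob907_eq_re_trace (M : Matrix (Fin 2) (Fin 2) ℂ) :
    frob907 M = (M * Mᴴ).trace.re := by
  rw [frob907_eq]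
  simp only [Matrix.trace, Matrix.diag, Matrix.mul_apply, Matrix.conjTranspose_apply,
    Fin.sum_univ_two, Complex.add_re, RCLike.star_def, Complex.mul_conj, Complex.ofReal_re]

theorem conjTranspose_mul_self_of_mul_conjTranspose907 {U : Matrix (Fin 2) (Fin 2) ℂ}
    (hU : U * Uᴴ = 1) : Uᴴ * U = 1 :=
  mul_eq_one_comm.mp hU

theorem frob907_mul_unitary (M : Matrix (Fin 2) (Fin 2) ℂ) {U : Matrix (Fin 2) (Fin 2) ℂ}
    (hU : U * Uᴴ = 1) : frob907 (M * U) = frob907 M := by
  rw [frob907_eq_re_trace, frob907_eq_re_trace, Matrix.conjTranspose_mul]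
  have : M * U * (Uᴴ * Mᴴ) = M * Mᴴ := by
    rw [Matrix.mul_assoc, ← Matrix.mul_assoc U, hU, Matrix.one_mul]
  rw [this]

theorem frob907_unitary_mul (M : Matrix (Fin 2) (Fin 2) ℂ) {U : Matrix (Fin 2) (Fin 2) ℂ}
    (hU : U * Uᴴ = 1) : frob907 (U * M) = frob907 M := by
  rw [frob907_eq_re_trace, frob907_eq_re_trace, Matrix.conjTranspose_mul]
  have h0 : U * M * (Mᴴ * Uᴴ) = U * (M * Mᴴ) * Uᴴ := by
    simp only [Matrix.mul_assoc]
  have h1 : (U * M * (Mᴴ * Uᴴ)).trace = (Uᴴ * U * (M * Mᴴ)).trace := by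
    rw [h0, Matrix.trace_mul_comm, Matrix.mul_assoc]
  rw [h1, conjTranspose_mul_self_of_mul_conjTranspose907 hU, Matrix.one_mul]

theorem norm_det_of_unitary907 {U : Matrix (Fin 2) (Fin 2) ℂ} (hU : U * Uᴴ = 1) :
    ‖U.det‖ = 1 := by
  have h := congrArg Matrix.det hU
  rw [Matrix.det_mul, Matrix.det_conjTranspose, Matrix.det_one] at h
  have h2 : Complex.normSq U.det = 1 := by
    have := congrArg Complex.re h
    rw [RCLike.star_def, Complex.mul_conj] at this
    simpa using this
  rw [Complex.normSq_eq_norm_sq] at h2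
  have h3 : ‖U.det‖ ^ 2 = 1 ^ 2 := by rw [h2]; norm_num
  exact (sq_eq_sq₀ (norm_nonneg _) zero_le_one).mp h3

/-- The Lagrange identity `(∑|M i j|²)² - 4 |det M|² = (p - s)² + 4 |q|²`. -/
theorem frob907_sq_sub (M : Matrix (Fin 2) (Fin 2) ℂ) :
    frob907 M ^ 2 - 4 * Complex.normSq M.det
      = (Complex.normSq (M 0 0) + Complex.normSq (M 0 1)
          - (Complex.normSq (M 1 0) + Complex.normSq (M 1 1))) ^ 2
        + 4 * Complex.normSq (M 0 0 * (starRingEnd ℂ) (M 1 0)
            + M 0 1 * (starRingEnd ℂ) (M 1 1)) := by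
  rw [frob907_eq, Matrix.det_fin_two]
  simp only [Complex.normSq_apply, Complex.add_re, Complex.add_im, Complex.sub_re,
    Complex.sub_im, Complex.mul_re, Complex.mul_im, Complex.conj_re, Complex.conj_im]
  ring

theorem two_norm_det_le_frob907 (M : Matrix (Fin 2) (Fin 2) ℂ) : 2 * ‖M.det‖ ≤ frob907 M := by
  have h := frob907_sq_sub M
  have h1 : 0 ≤ frob907 M ^ 2 - 4 * Complex.normSq M.det := by
    rw [h]
    have := Complex.normSq_nonneg (M 0 0 * (starRingEnd ℂ) (M 1 0)
      + M 0 1 * (starRingEnd ℂ) (M 1 1))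
    positivity
  rw [Complex.normSq_eq_norm_sq] at h1
  have h2 : (2 * ‖M.det‖) ^ 2 ≤ frob907 M ^ 2 := by nlinarith
  exact (sq_le_sq₀ (by positivity) (frob907_nonneg M)).mp h2

/-- **Equality case**: `∑ |M i j|² = 2 |det M|` forces `M Mᴴ = |det M| • 1`. -/
theorem mul_conjTranspose_of_frob907_eq {M : Matrix (Fin 2) (Fin 2) ℂ}
    (h : frob907 M = 2 * ‖M.det‖) : M * Mᴴ = ((‖M.det‖ : ℝ) : ℂ) • (1 : Matrix (Fin 2) (Fin 2) ℂ) := by
  have hid := frob907_sq_sub M
  have h0 : frob907 M ^ 2 - 4 * Complex.normSq M.det = 0 := by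
    rw [h, Complex.normSq_eq_norm_sq]; ring
  rw [h0] at hid
  set p := Complex.normSq (M 0 0) + Complex.normSq (M 0 1) with hp
  set s := Complex.normSq (M 1 0) + Complex.normSq (M 1 1) with hs
  set q := M 0 0 * (starRingEnd ℂ) (M 1 0) + M 0 1 * (starRingEnd ℂ) (M 1 1) with hq
  have hqn := Complex.normSq_nonneg q
  have hps : (p - s) ^ 2 = 0 := by nlinarith [sq_nonneg (p - s)]
  have hq0 : Complex.normSq q = 0 := by nlinarith [sq_nonneg (p - s)]
  have hps' : p = s := by
    have := pow_eq_zero_iff (two_ne_zero) |>.mp hps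
    linarith
  have hq' : q = 0 := Complex.normSq_eq_zero.mp hq0
  have hsum : p + s = 2 * ‖M.det‖ := by rw [← h, frob907_eq]
  have hp' : p = ‖M.det‖ := by linarith
  have hs' : s = ‖M.det‖ := by linarith
  have hqc : (starRingEnd ℂ) q = 0 := by rw [hq']; simp
  ext i j
  fin_cases i <;> fin_cases j
  · simp only [Fin.zero_eta, Fin.isValue, Matrix.mul_apply, Matrix.conjTranspose_apply,
      Fin.sum_univ_two, RCLike.star_def, Complex.mul_conj, Matrix.smul_apply, Matrix.one_apply_eq,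
      smul_eq_mul, mul_one]
    rw [← hp', hp]
    push_cast
    rfl
  · simp only [Fin.zero_eta, Fin.isValue, Fin.mk_one, Matrix.mul_apply, Matrix.conjTranspose_apply,
      Fin.sum_univ_two, RCLike.star_def, Matrix.smul_apply, smul_eq_mul]
    rw [Matrix.one_apply_ne (by decide), mul_zero]
    exact hq'
  · simp only [Fin.zero_eta, Fin.isValue, Fin.mk_one, Matrix.mul_apply, Matrix.conjTranspose_apply,
      Fin.sum_univ_two, RCLike.star_def, Matrix.smul_apply, smul_eq_mul]
    rw [Matrix.one_apply_ne (by decide), mul_zero]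
    have : M 1 0 * (starRingEnd ℂ) (M 0 0) + M 1 1 * (starRingEnd ℂ) (M 0 1)
        = (starRingEnd ℂ) q := by
      rw [hq]; simp only [map_add, map_mul, Complex.conj_conj]; ring
    rw [this, hqc]
  · simp only [Fin.mk_one, Fin.isValue, Matrix.mul_apply, Matrix.conjTranspose_apply,
      Fin.sum_univ_two, RCLike.star_def, Complex.mul_conj, Matrix.smul_apply, Matrix.one_apply_eq,
      smul_eq_mul, mul_one]
    rw [← hs', hs]
    push_cast
    rfl

/-- Inversion: `frob (M⁻¹) = frob M / |det M|²` for an invertible `2 × 2` matrix. -/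
theorem frob907_inv {M N : Matrix (Fin 2) (Fin 2) ℂ} (h : M * N = 1) :
    frob907 N * ‖M.det‖ ^ 2 = frob907 M := by
  have hdet : M.det * N.det = 1 := by rw [← Matrix.det_mul, h, Matrix.det_one]
  have hM : M.det ≠ 0 := left_ne_zero_of_mul_eq_one hdet
  have hN : N = M⁻¹ := (Matrix.inv_eq_right_inv h).symm
  have hNe : ∀ i j, N i j = M.det⁻¹ * (Matrix.adjugate M) i j := by
    intro i j
    rw [hN, Matrix.inv_def, Matrix.smul_apply, smul_eq_mul, Ring.inverse_eq_inv']
  have hn : Complex.normSq M.det ≠ 0 := by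
    rw [Ne, Complex.normSq_eq_zero]; exact hM
  rw [← Complex.normSq_eq_norm_sq, frob907_eq, frob907_eq, hNe, hNe, hNe, hNe,
    Matrix.adjugate_fin_two]
  simp only [Matrix.of_apply, Matrix.cons_val', Matrix.cons_val_zero, Matrix.cons_val_one,
    Matrix.cons_val_fin_one, Complex.normSq_mul, Complex.normSq_inv, Complex.normSq_neg]
  field_simp
  ring

end Fermat.Agent.LT.T2.H907

end
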