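import Mathlib
import Fermat.Agent.LT.H556.A0
import Fermat.Agent.LT.T8.H864.Local
import Fermat.Agent.LT.H51.MS4A
import Fermat.Agent.LT.T2.H907.Mat2

/-!
# Row LT, tower T2, leaf T2.06 (helper907): the archimedean defect

For `g ∈ GL₂(𝔸_K)` and an infinite place `w` let `M_w = infComp w g`.  The *defect*
`defect907 g ≥ 0` is the sum of

* `tau907 w g = (∑ |M_w i j|²) / (2 |det M_w|) - 1` (zero iff `M_w ∈ ℝ_{>0} · U(2)`),
* `sig907 w g = 1 - Re (det M_w) / |det M_w|` at the real places (zero iff `det M_w > 0`),
* `del907 w g = |det M_w| + |det M_w|⁻¹ - 2` (zero iff `|det M_w| = 1`).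

It is continuous, invariant under the compact groups at infinity, under the level group and under
inversion; it vanishes exactly on `(finite part) · K_∞`.
-/

set_option autoImplicit false
set_option linter.unusedSectionVars false

open IsDedekindDomain NumberField Matrix
open scoped MatrixGroups Classical

noncomputable section

namespace Fermat.Agent.LT.T2.H907

open Fermat.Agent.LT.H556.A0 Fermat.Agent.LT.T8.H864 Fermat.Agent.LT.H51.MS4

variable {K : Type} [Field K] [NumberField K]

/-! ## Components -/

theorem infComp_mul_inv907 (w : InfinitePlace K) (g : G K) :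
    infComp w g * infComp w g⁻¹ = 1 := by
  rw [← infComp_mul, mul_inv_cancel, infComp_one]

theorem infComp_inv_mul907 (w : InfinitePlace K) (g : G K) :
    infComp w g⁻¹ * infComp w g = 1 := by
  rw [← infComp_mul, inv_mul_cancel, infComp_one]

theorem det_infComp_ne_zero907 (w : InfinitePlace K) (g : G K) : (infComp w g).det ≠ 0 := by
  have h := congrArg Matrix.det (infComp_mul_inv907 w g)
  rw [Matrix.det_mul, Matrix.det_one] at h
  exact left_ne_zero_of_mul_eq_one h

/-- `|det M_w|`. -/
def dW907 (w : InfinitePlace K) (g : G K) : ℝ := ‖(infComp w g).det‖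

theorem dW907_pos (w : InfinitePlace K) (g : G K) : 0 < dW907 w g :=
  norm_pos_iff.mpr (det_infComp_ne_zero907 w g)

theorem dW907_mul (w : InfinitePlace K) (g h : G K) :
    dW907 w (g * h) = dW907 w g * dW907 w h := by
  unfold dW907
  rw [infComp_mul, Matrix.det_mul, norm_mul]

theorem dW907_one (w : InfinitePlace K) : dW907 w (1 : G K) = 1 := by
  unfold dW907
  rw [infComp_one, Matrix.det_one, norm_one]

theorem dW907_inv (w : InfinitePlace K) (g : G K) : dW907 w g⁻¹ = (dW907 w g)⁻¹ := by
  have h := dW907_mul w g g⁻¹
  rw [mul_inv_cancel, dW907_one] at h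
  exact eq_inv_of_mul_eq_one_right h.symm

/-- The defect of `M_w` from `ℝ_{>0} · U(2)`. -/
def tau907 (w : InfinitePlace K) (g : G K) : ℝ :=
  frob907 (infComp w g) / (2 * dW907 w g) - 1

/-- The sign defect at the real places. -/
def sig907 (w : InfinitePlace K) (g : G K) : ℝ :=
  if w.IsReal then 1 - (infComp w g).det.re / dW907 w g else 0

/-- The defect of `|det M_w| = 1`. -/
def del907 (w : InfinitePlace K) (g : G K) : ℝ :=
  dW907 w g + (dW907 w g)⁻¹ - 2

/-- THE DEFECT. -/
def defect907 (g : G K) : ℝ :=
  ∑ w : InfinitePlace K, (tau907 w g + sig907 w g + del907 w g)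

theorem tau907_nonneg (w : InfinitePlace K) (g : G K) : 0 ≤ tau907 w g := by
  unfold tau907
  have hd := dW907_pos w g
  have h := two_norm_det_le_frob907 (infComp w g)
  rw [sub_nonneg, le_div_iff₀ (by positivity)]
  simpa [dW907] using h

theorem sig907_nonneg (w : InfinitePlace K) (g : G K) : 0 ≤ sig907 w g := by
  unfold sig907
  split_ifs
  · have hd := dW907_pos w g
    rw [sub_nonneg, div_le_one hd]
    exact (Complex.re_le_norm _)
  · exact le_rfl

theorem del907_nonneg (w : InfinitePlace K) (g : G K) : 0 ≤ del907 w g := by
  unfold del907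
  have hd := dW907_pos w g
  have : dW907 w g + (dW907 w g)⁻¹ - 2 = (dW907 w g - 1) ^ 2 / dW907 w g := by
    field_simp
    ring
  rw [this]
  positivity

theorem term907_nonneg (w : InfinitePlace K) (g : G K) :
    0 ≤ tau907 w g + sig907 w g + del907 w g :=
  add_nonneg (add_nonneg (tau907_nonneg w g) (sig907_nonneg w g)) (del907_nonneg w g)

theorem defect907_nonneg (g : G K) : 0 ≤ defect907 g :=
  Finset.sum_nonneg fun w _ => term907_nonneg w g

theorem term907_le_defect (w : InfinitePlace K) (g : G K) :
    tau907 w g + sig907 w g + del907 w g ≤ defect907 g :=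
  Finset.single_le_sum (f := fun w => tau907 w g + sig907 w g + del907 w g)
    (fun w _ => term907_nonneg w g) (Finset.mem_univ w)

theorem tau907_le_defect (w : InfinitePlace K) (g : G K) : tau907 w g ≤ defect907 g := by
  have := term907_le_defect w g
  have := sig907_nonneg w g
  have := del907_nonneg w g
  linarith

theorem sig907_le_defect (w : InfinitePlace K) (g : G K) : sig907 w g ≤ defect907 g := by
  have := term907_le_defect w g
  have := tau907_nonneg w g
  have := del907_nonneg w g
  linarith

theorem del907_le_defect (w : InfinitePlace K) (g : G K) : del907 w g ≤ defect907 g := by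
  have := term907_le_defect w g
  have := tau907_nonneg w g
  have := sig907_nonneg w g
  linarith

/-! ## Invariance -/

/-- The defect depends only on `frob`, `|det|` and `Re det` (at the real places). -/
theorem defect907_congr {g g' : G K}
    (hf : ∀ w, frob907 (infComp w g') = frob907 (infComp w g))
    (hd : ∀ w, dW907 w g' = dW907 w g)
    (hr : ∀ w, w.IsReal → (infComp w g').det.re = (infComp w g).det.re) :
    defect907 g' = defect907 g := by
  have htau : ∀ w, tau907 w g' = tau907 w g := fun w => by
    unfold tau907
    rw [hf, hd]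
  have hsig : ∀ w, sig907 w g' = sig907 w g := fun w => by
    unfold sig907
    split_ifs with hw
    · rw [hr w hw, hd]
    · rfl
  have hdel : ∀ w, del907 w g' = del907 w g := fun w => by
    unfold del907
    rw [hd]
  unfold defect907
  simp only [htau, hsig, hdel]

/-- Right multiplication by an element which is unitary with determinant `1` at the real
places, at every infinite place. -/
theorem defect907_mul_right {g k : G K}
    (hk : ∀ w, infComp w k * (infComp w k)ᴴ = 1)
    (hk' : ∀ w, w.IsReal → (infComp w k).det = 1) : defect907 (g * k) = defect907 g := by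
  refine defect907_congr (fun w => ?_) (fun w => ?_) (fun w hw => ?_)
  · rw [infComp_mul, frob907_mul_unitary _ (hk w)]
  · rw [dW907_mul]
    unfold dW907
    rw [norm_det_of_unitary907 (hk w), mul_one]
  · rw [infComp_mul, Matrix.det_mul, hk' w hw, mul_one]

theorem defect907_mul_left {g k : G K}
    (hk : ∀ w, infComp w k * (infComp w k)ᴴ = 1)
    (hk' : ∀ w, w.IsReal → (infComp w k).det = 1) : defect907 (k * g) = defect907 g := by
  refine defect907_congr (fun w => ?_) (fun w => ?_) (fun w hw => ?_)
  · rw [infComp_mul, frob907_unitary_mul _ (hk w)]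
  · rw [dW907_mul]
    unfold dW907
    rw [norm_det_of_unitary907 (hk w), one_mul]
  · rw [infComp_mul, Matrix.det_mul, hk' w hw, one_mul]

/-- Invariance under inversion. -/
theorem defect907_inv (g : G K) : defect907 g⁻¹ = defect907 g := by
  have htau : ∀ w, tau907 w g⁻¹ = tau907 w g := fun w => by
    unfold tau907
    have hd := (dW907_pos w g).ne'
    have hf := frob907_inv (infComp_mul_inv907 w g)
    rw [dW907_inv, ← hf]
    unfold dW907 at hd ⊢
    field_simp
  have hsig : ∀ w, sig907 w g⁻¹ = sig907 w g := fun w => by
    unfold sig907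
    split_ifs with hw
    · have hd := (dW907_pos w g).ne'
      have hdet : (infComp w g⁻¹).det = ((infComp w g).det)⁻¹ := by
        have h := congrArg Matrix.det (infComp_mul_inv907 w g)
        rw [Matrix.det_mul, Matrix.det_one] at h
        exact eq_inv_of_mul_eq_one_right h
      rw [dW907_inv, hdet, Complex.inv_re, Complex.normSq_eq_norm_sq]
      unfold dW907 at hd ⊢
      field_simp
    · rfl
  have hdel : ∀ w, del907 w g⁻¹ = del907 w g := fun w => by
    unfold del907
    rw [dW907_inv, inv_inv]
    ring
  unfold defect907
  simp only [htau, hsig, hdel]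

/-! ## The zero set -/

theorem defect907_eq_zero_iff (g : G K) :
    defect907 g = 0 ↔ ∀ w, tau907 w g = 0 ∧ sig907 w g = 0 ∧ del907 w g = 0 := by
  constructor
  · intro h w
    have h1 := tau907_le_defect w g
    have h2 := sig907_le_defect w g
    have h3 := del907_le_defect w g
    have h1' := tau907_nonneg w g
    have h2' := sig907_nonneg w g
    have h3' := del907_nonneg w g
    rw [h] at h1 h2 h3
    exact ⟨le_antisymm h1 h1', le_antisymm h2 h2', le_antisymm h3 h3'⟩
  · intro h
    unfold defect907
    refine Finset.sum_eq_zero fun w _ => ?_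
    rw [(h w).1, (h w).2.1, (h w).2.2]
    ring

theorem dW907_eq_one_of_del {w : InfinitePlace K} {g : G K} (h : del907 w g = 0) :
    dW907 w g = 1 := by
  unfold del907 at h
  have hd := dW907_pos w g
  have h2 : (dW907 w g - 1) ^ 2 = 0 := by
    have : dW907 w g + (dW907 w g)⁻¹ - 2 = (dW907 w g - 1) ^ 2 / dW907 w g := by
      field_simp
      ring
    rw [this, div_eq_zero_iff] at h
    rcases h with h | h
    · exact h
    · exact absurd h hd.ne'
  have := pow_eq_zero_iff (two_ne_zero) |>.mp h2
  linarith

/-- On the zero set of the defect the archimedean components are unitary, of determinant `1` at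
the real places. -/
theorem unitary_of_defect907_eq_zero {g : G K} (h : defect907 g = 0) (w : InfinitePlace K) :
    infComp w g * (infComp w g)ᴴ = 1 ∧ (w.IsReal → (infComp w g).det = 1) := by
  obtain ⟨ht, hs, hd⟩ := (defect907_eq_zero_iff g).1 h w
  have hd1 := dW907_eq_one_of_del hd
  have hfrob : frob907 (infComp w g) = 2 * ‖(infComp w g).det‖ := by
    unfold tau907 at ht
    rw [hd1] at ht
    have : frob907 (infComp w g) = 2 := by linarith
    rw [this]
    unfold dW907 at hd1
    rw [hd1]
    norm_num
  refine ⟨?_, fun hw => ?_⟩
  · rw [mul_conjTranspose_of_frob907_eq hfrob]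
    unfold dW907 at hd1
    rw [hd1]
    simp
  · unfold sig907 at hs
    rw [if_pos hw, hd1, div_one] at hs
    have hre : (infComp w g).det.re = 1 := by linarith
    unfold dW907 at hd1
    have him : (infComp w g).det.im = 0 := by
      have h2 : Complex.normSq (infComp w g).det = 1 := by
        rw [Complex.normSq_eq_norm_sq, hd1]; norm_num
      rw [Complex.normSq_apply, hre] at h2
      have : (infComp w g).det.im * (infComp w g).det.im = 0 := by linarith
      exact mul_self_eq_zero.mp this
    exact Complex.ext (by simpa using hre) (by simpa using him)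

end Fermat.Agent.LT.T2.H907

end
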