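import Mathlib
import Fermat.Agent.LT.T2.H907.Defect

/-!
# Row LT, tower T2, leaf T2.06 (helper907): continuity and smoothness of the defect
-/

set_option autoImplicit false
set_option linter.unusedSectionVars false

open IsDedekindDomain NumberField Matrix
open scoped MatrixGroups Classical ContDiff

noncomputable section

namespace Fermat.Agent.LT.T2.H907

open Fermat.Agent.LT.H556.A0 Fermat.Agent.LT.T8.H864 Fermat.Agent.LT.H51.MS4

variable {K : Type} [Field K] [NumberField K]

/-! ## Continuity -/

theorem continuous_entry907 (i j : Fin 2) :
    Continuous fun g : G K => (g : Matrix (Fin 2) (Fin 2) (Adl K)) i j := by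
  have h0 : Continuous (fun g : G K => (g : Matrix (Fin 2) (Fin 2) (Adl K))) :=
    Units.continuous_val
  exact h0.matrix_elem i j

theorem continuous_infComp907 (w : InfinitePlace K) (i j : Fin 2) :
    Continuous fun g : G K => infComp w g i j := by
  have h1 : Continuous fun x : Adl K => x.1 w :=
    (continuous_apply w).comp continuous_fst
  exact (InfinitePlace.Completion.isometry_extensionEmbedding w).continuous.comp
    (h1.comp (continuous_entry907 i j))

theorem continuous_finComp907 (v : HeightOneSpectrum (𝓞 K)) (i j : Fin 2) :
    Continuous fun g : G K => finComp v g i j := by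
  have h1 : Continuous fun x : Adl K => x.2 v :=
    (RestrictedProduct.continuous_eval v).comp continuous_snd
  exact h1.comp (continuous_entry907 i j)

theorem continuous_frob907 (w : InfinitePlace K) :
    Continuous fun g : G K => frob907 (infComp w g) := by
  unfold frob907
  refine continuous_finsetSum _ fun i _ => continuous_finsetSum _ fun j _ => ?_
  exact Complex.continuous_normSq.comp (continuous_infComp907 w i j)

theorem continuous_det907 (w : InfinitePlace K) :
    Continuous fun g : G K => (infComp w g).det := by
  simp only [Matrix.det_fin_two]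
  exact ((continuous_infComp907 w 0 0).mul (continuous_infComp907 w 1 1)).sub
    ((continuous_infComp907 w 0 1).mul (continuous_infComp907 w 1 0))

theorem continuous_dW907 (w : InfinitePlace K) : Continuous fun g : G K => dW907 w g :=
  (continuous_det907 w).norm

theorem continuous_defect907 : Continuous (defect907 (K := K)) := by
  unfold defect907
  refine continuous_finsetSum _ fun w _ => Continuous.add (Continuous.add ?_ ?_) ?_
  · unfold tau907
    exact ((continuous_frob907 w).div (continuous_const.mul (continuous_dW907 w))
      fun g => (mul_pos two_pos (dW907_pos w g)).ne').sub continuous_const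
  · unfold sig907
    split_ifs
    · exact continuous_const.sub ((Complex.continuous_re.comp (continuous_det907 w)).div
        (continuous_dW907 w) fun g => (dW907_pos w g).ne')
    · exact continuous_const
  · unfold del907
    exact ((continuous_dW907 w).add ((continuous_dW907 w).inv₀
      fun g => (dW907_pos w g).ne')).sub continuous_const

/-! ## Smoothness along archimedean families -/

section Smooth

variable {n : ℕ} {h : (Fin n → ℝ) → G K}

theorem contDiff_infComp_mul907 (g : G K)
    (hh : ∀ (w : InfinitePlace K) (i j : Fin 2), ContDiff ℝ ∞ (fun t => infComp w (h t) i j))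
    (w : InfinitePlace K) (i j : Fin 2) :
    ContDiff ℝ ∞ (fun t => infComp w (g * h t) i j) := by
  simp only [infComp_mul, Matrix.mul_apply, Fin.sum_univ_two]
  exact (contDiff_const.mul (hh w 0 j)).add (contDiff_const.mul (hh w 1 j))

theorem contDiff_frob907 (g : G K)
    (hh : ∀ (w : InfinitePlace K) (i j : Fin 2), ContDiff ℝ ∞ (fun t => infComp w (h t) i j))
    (w : InfinitePlace K) :
    ContDiff ℝ ∞ (fun t => frob907 (infComp w (g * h t))) := by
  unfold frob907
  refine ContDiff.sum fun i _ => ContDiff.sum fun j _ => ?_
  have h1 := contDiff_infComp_mul907 g hh w i j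
  have h2 : (fun t => Complex.normSq (infComp w (g * h t) i j))
      = fun t => ‖infComp w (g * h t) i j‖ ^ 2 := by
    funext t
    exact Complex.normSq_eq_norm_sq _
  rw [h2]
  exact h1.norm_sq ℝ

theorem contDiff_det907 (g : G K)
    (hh : ∀ (w : InfinitePlace K) (i j : Fin 2), ContDiff ℝ ∞ (fun t => infComp w (h t) i j))
    (w : InfinitePlace K) :
    ContDiff ℝ ∞ (fun t => (infComp w (g * h t)).det) := by
  simp only [Matrix.det_fin_two]
  exact ((contDiff_infComp_mul907 g hh w 0 0).mul (contDiff_infComp_mul907 g hh w 1 1)).sub
    ((contDiff_infComp_mul907 g hh w 0 1).mul (contDiff_infComp_mul907 g hh w 1 0))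

theorem contDiff_dW907 (g : G K)
    (hh : ∀ (w : InfinitePlace K) (i j : Fin 2), ContDiff ℝ ∞ (fun t => infComp w (h t) i j))
    (w : InfinitePlace K) :
    ContDiff ℝ ∞ (fun t => dW907 w (g * h t)) :=
  (contDiff_det907 g hh w).norm ℝ fun t => det_infComp_ne_zero907 w (g * h t)

theorem contDiff_defect907 (g : G K)
    (hh : ∀ (w : InfinitePlace K) (i j : Fin 2), ContDiff ℝ ∞ (fun t => infComp w (h t) i j)) :
    ContDiff ℝ ∞ (fun t => defect907 (g * h t)) := by
  unfold defect907
  refine ContDiff.sum fun w _ => ContDiff.add (ContDiff.add ?_ ?_) ?_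
  · unfold tau907
    exact ((contDiff_frob907 g hh w).div (contDiff_const.mul (contDiff_dW907 g hh w))
      fun t => (mul_pos two_pos (dW907_pos w (g * h t))).ne').sub contDiff_const
  · unfold sig907
    split_ifs
    · exact contDiff_const.sub ((Complex.reCLM.contDiff.comp (contDiff_det907 g hh w)).div
        (contDiff_dW907 g hh w) fun t => (dW907_pos w (g * h t)).ne')
    · exact contDiff_const
  · unfold del907
    exact ((contDiff_dW907 g hh w).add ((contDiff_dW907 g hh w).inv
      fun t => (dW907_pos w (g * h t)).ne')).sub contDiff_const

end Smooth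

end Fermat.Agent.LT.T2.H907

end
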