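import Mathlib
import Fermat.Agent.LT.H51.MS4B
import Fermat.Agent.LT.T2.H907.Smooth

/-!
# Row LT, tower T2, leaf T2.06 (helper907): the finite level condition

`Pfin907 𝔫 g`: the finite components of `g` lie in the local level groups `U(𝔫)_v`.  It is the
membership in a subgroup which is open and closed in `GL₂(𝔸_K)` (for `𝔫 ≠ 0`).
-/

set_option autoImplicit false
set_option linter.unusedSectionVars false

open IsDedekindDomain NumberField Matrix
open scoped MatrixGroups Classical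

noncomputable section

namespace Fermat.Agent.LT.T2.H907

open Fermat.Agent.LT.H556.A0 Fermat.Agent.LT.T8.H864 Fermat.Agent.LT.H51.MS4

variable {K : Type} [Field K] [NumberField K]

/-! ## The closure of the ideal -/

theorem idealClosure_add907 (𝔫 : Ideal (𝓞 K)) (v : HeightOneSpectrum (𝓞 K))
    {x y : v.adicCompletion K} (hx : x ∈ idealClosure 𝔫 v) (hy : y ∈ idealClosure 𝔫 v) :
    x + y ∈ idealClosure 𝔫 v := by
  unfold idealClosure at hx hy ⊢
  refine map_mem_closure₂ continuous_add hx hy ?_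
  rintro _ ⟨a, ha, rfl⟩ _ ⟨b, hb, rfl⟩
  exact ⟨a + b, 𝔫.add_mem ha hb, by simp⟩

theorem idealClosure_mul907 (𝔫 : Ideal (𝓞 K)) (v : HeightOneSpectrum (𝓞 K))
    {x y : v.adicCompletion K} (hx : x ∈ idealClosure 𝔫 v) (hy : y ∈ idealClosure 𝔫 v) :
    x * y ∈ idealClosure 𝔫 v := by
  unfold idealClosure at hx hy ⊢
  refine map_mem_closure₂ continuous_mul hx hy ?_
  rintro _ ⟨a, ha, rfl⟩ _ ⟨b, hb, rfl⟩
  exact ⟨a * b, 𝔫.mul_mem_left a hb, by simp⟩

theorem idealClosure_subset_integers907 (𝔫 : Ideal (𝓞 K)) (v : HeightOneSpectrum (𝓞 K))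
    {x : v.adicCompletion K} (hx : x ∈ idealClosure 𝔫 v) : x ∈ v.adicCompletionIntegers K := by
  unfold idealClosure at hx
  have hcl : IsClosed ((v.adicCompletionIntegers K : Set (v.adicCompletion K))) :=
    Valued.isClosed_valuationSubring (v.adicCompletion K)
  refine closure_minimal ?_ hcl hx
  rintro _ ⟨a, -, rfl⟩
  rw [SetLike.mem_coe, HeightOneSpectrum.mem_adicCompletionIntegers, valued_algebraMap]
  exact v.valuation_le_one a

/-! ## The local level group is a group -/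

theorem locLevel_mul907 {𝔫 : Ideal (𝓞 K)} {v : HeightOneSpectrum (𝓞 K)}
    {m m' : GL (Fin 2) (v.adicCompletion K)} (hm : LocLevel 𝔫 v m) (hm' : LocLevel 𝔫 v m') :
    LocLevel 𝔫 v (m * m') := by
  have key : ∀ A B : Matrix (Fin 2) (Fin 2) (v.adicCompletion K),
      (∀ i j, (A - 1) i j ∈ idealClosure 𝔫 v) → (∀ i j, (B - 1) i j ∈ idealClosure 𝔫 v) →
      ∀ i j, (A * B - 1) i j ∈ idealClosure 𝔫 v := by
    intro A B hA hB i j
    have e : A * B - 1 = (A - 1) * (B - 1) + (A - 1) + (B - 1) := by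
      rw [Matrix.sub_mul, Matrix.mul_sub, Matrix.mul_sub, Matrix.mul_one, Matrix.one_mul,
        Matrix.one_mul]
      abel
    rw [e, Matrix.add_apply, Matrix.add_apply, Matrix.mul_apply, Fin.sum_univ_two]
    exact idealClosure_add907 𝔫 v (idealClosure_add907 𝔫 v
      (idealClosure_add907 𝔫 v (idealClosure_mul907 𝔫 v (hA i 0) (hB 0 j))
        (idealClosure_mul907 𝔫 v (hA i 1) (hB 1 j))) (hA i j)) (hB i j)
  intro i j
  refine ⟨key _ _ (fun i j => (hm i j).1) (fun i j => (hm' i j).1) i j, ?_⟩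
  rw [_root_.mul_inv_rev]
  exact key _ _ (fun i j => (hm' i j).2) (fun i j => (hm i j).2) i j

theorem locLevel_inv907 {𝔫 : Ideal (𝓞 K)} {v : HeightOneSpectrum (𝓞 K)}
    {m : GL (Fin 2) (v.adicCompletion K)} (hm : LocLevel 𝔫 v m) : LocLevel 𝔫 v m⁻¹ := by
  intro i j
  refine ⟨(hm i j).2, ?_⟩
  rw [inv_inv]
  exact (hm i j).1

/-! ## The global condition -/

/-- The finite components of `g` lie in the level group. -/
def Pfin907 (𝔫 : Ideal (𝓞 K)) (g : G K) : Prop :=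
  ∀ v : HeightOneSpectrum (𝓞 K), LocLevel 𝔫 v (finCompHom v g)

theorem pfin907_one (𝔫 : Ideal (𝓞 K)) : Pfin907 𝔫 (1 : G K) := fun v => by
  rw [map_one]; exact locLevel_one 𝔫 v

theorem pfin907_mul {𝔫 : Ideal (𝓞 K)} {g h : G K} (hg : Pfin907 𝔫 g) (hh : Pfin907 𝔫 h) :
    Pfin907 𝔫 (g * h) := fun v => by
  rw [map_mul]; exact locLevel_mul907 (hg v) (hh v)

theorem pfin907_inv {𝔫 : Ideal (𝓞 K)} {g : G K} (hg : Pfin907 𝔫 g) : Pfin907 𝔫 g⁻¹ := fun v => by
  rw [map_inv]; exact locLevel_inv907 (hg v)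

theorem pfin907_inv_iff {𝔫 : Ideal (𝓞 K)} {g : G K} : Pfin907 𝔫 g⁻¹ ↔ Pfin907 𝔫 g :=
  ⟨fun h => by simpa using pfin907_inv h, pfin907_inv⟩

theorem pfin907_mul_right_iff {𝔫 : Ideal (𝓞 K)} {g h : G K} (hh : Pfin907 𝔫 h) :
    Pfin907 𝔫 (g * h) ↔ Pfin907 𝔫 g :=
  ⟨fun H => by simpa using pfin907_mul H (pfin907_inv hh), fun H => pfin907_mul H hh⟩

theorem pfin907_mul_left_iff {𝔫 : Ideal (𝓞 K)} {g h : G K} (hh : Pfin907 𝔫 h) :
    Pfin907 𝔫 (h * g) ↔ Pfin907 𝔫 g :=
  ⟨fun H => by simpa using pfin907_mul (pfin907_inv hh) H, fun H => pfin907_mul hh H⟩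

theorem pfin907_of_inLevelGroup {𝔫 : Ideal (𝓞 K)} {u : G K} (hu : InLevelGroup 𝔫 u) :
    Pfin907 𝔫 u :=
  ((inLevelGroup_iff 𝔫 u).1 hu).2

theorem pfin907_of_trivAtFin {𝔫 : Ideal (𝓞 K)} {h : G K}
    (hh : ∀ v : HeightOneSpectrum (𝓞 K), TrivAtFin v h) : Pfin907 𝔫 h := fun v => by
  rw [(trivAtFin_iff_hom v h).1 (hh v)]; exact locLevel_one 𝔫 v

/-- The level subgroup (finite components only). -/
def levelSubgroup907 (𝔫 : Ideal (𝓞 K)) : Subgroup (G K) where
  carrier := {g | Pfin907 𝔫 g}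
  mul_mem' := fun hg hh => pfin907_mul hg hh
  one_mem' := pfin907_one 𝔫
  inv_mem' := fun hg => pfin907_inv hg

theorem mem_levelSubgroup907 {𝔫 : Ideal (𝓞 K)} {g : G K} :
    g ∈ levelSubgroup907 𝔫 ↔ Pfin907 𝔫 g := Iff.rfl

/-! ## Openness -/

theorem snd_one_apply907 (v : HeightOneSpectrum (𝓞 K)) (i j : Fin 2) :
    ((1 : Matrix (Fin 2) (Fin 2) (Adl K)) i j).2 v
      = (1 : Matrix (Fin 2) (Fin 2) (v.adicCompletion K)) i j := by
  by_cases h : i = j
  · subst h
    rw [Matrix.one_apply_eq, Matrix.one_apply_eq]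
    rfl
  · rw [Matrix.one_apply_ne h, Matrix.one_apply_ne h]
    rfl

theorem snd_sub_one_apply907 (g : G K) (v : HeightOneSpectrum (𝓞 K)) (i j : Fin 2) :
    (((g : Matrix (Fin 2) (Fin 2) (Adl K)) i j).2
        - ((1 : Matrix (Fin 2) (Fin 2) (Adl K)) i j).2) v
      = ((finCompHom v g : Matrix (Fin 2) (Fin 2) (v.adicCompletion K)) - 1) i j := by
  rw [coe_finCompHom, Matrix.sub_apply, ← snd_one_apply907 v i j]
  rfl

/-- The finite adeles all of whose components have valuation at most that of `n₀`. -/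
def smallSet907 (n₀ : 𝓞 K) : Set (FiniteAdeleRing (𝓞 K) K) :=
  {x | ∀ v : HeightOneSpectrum (𝓞 K),
    Valued.v (x v) ≤ v.valuation K (algebraMap (𝓞 K) K n₀)}

theorem isOpen_smallSet907 {n₀ : 𝓞 K} (hn₀ : n₀ ≠ 0) : IsOpen (smallSet907 (K := K) n₀) := by
  have hk0 : (algebraMap (𝓞 K) K n₀) ≠ 0 := by
    rw [Ne, FaithfulSMul.algebraMap_eq_zero_iff]
    exact hn₀
  set a : FiniteAdeleRing (𝓞 K) K :=
    algebraMap K (FiniteAdeleRing (𝓞 K) K) (algebraMap (𝓞 K) K n₀)⁻¹ with ha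
  have hopen : IsOpen {f : FiniteAdeleRing (𝓞 K) K |
      ∀ v : HeightOneSpectrum (𝓞 K), f v ∈ v.adicCompletionIntegers K} :=
    RestrictedProduct.isOpen_forall_mem
      (fun v => Valued.isOpen_valuationSubring (v.adicCompletion K))
  have hcont : Continuous fun x : FiniteAdeleRing (𝓞 K) K => a * x :=
    continuous_const.mul continuous_id
  have hset : smallSet907 (K := K) n₀ = (fun x : FiniteAdeleRing (𝓞 K) K => a * x) ⁻¹'
      {f | ∀ v : HeightOneSpectrum (𝓞 K), f v ∈ v.adicCompletionIntegers K} := by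
    ext x
    simp only [smallSet907, Set.mem_ofPred_eq, Set.mem_preimage]
    refine forall_congr' fun v => ?_
    have hav : (a * x) v = algebraMap K (v.adicCompletion K) (algebraMap (𝓞 K) K n₀)⁻¹ * x v := by
      rfl
    rw [HeightOneSpectrum.mem_adicCompletionIntegers, hav, map_mul, valued_algebraMap, map_inv₀]
    have hv0 : v.valuation K (algebraMap (𝓞 K) K n₀) ≠ 0 := by
      rw [Ne, map_eq_zero]; exact hk0
    rw [inv_mul_le_iff₀ (zero_lt_iff.mpr hv0), mul_one]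
  rw [hset]
  exact hopen.preimage hcont

theorem isOpen_pfin907 {𝔫 : Ideal (𝓞 K)} (h𝔫 : 𝔫 ≠ ⊥) : IsOpen {g : G K | Pfin907 𝔫 g} := by
  obtain ⟨n₀, hn₀, hn₀'⟩ := Submodule.exists_mem_ne_zero_of_ne_bot h𝔫
  have hsnd : ∀ i j : Fin 2, Continuous fun g : G K =>
      ((g : Matrix (Fin 2) (Fin 2) (Adl K)) i j).2
        - ((1 : Matrix (Fin 2) (Fin 2) (Adl K)) i j).2 := fun i j =>
    (continuous_snd.comp (continuous_entry907 i j)).sub continuous_const
  have hsnd' : ∀ i j : Fin 2, Continuous fun g : G K =>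
      (((g⁻¹ : G K) : Matrix (Fin 2) (Fin 2) (Adl K)) i j).2
        - ((1 : Matrix (Fin 2) (Fin 2) (Adl K)) i j).2 := fun i j =>
    (continuous_snd.comp ((continuous_entry907 i j).comp continuous_inv)).sub continuous_const
  set W : Set (G K) := {g | ∀ i j : Fin 2,
      (((g : Matrix (Fin 2) (Fin 2) (Adl K)) i j).2
        - ((1 : Matrix (Fin 2) (Fin 2) (Adl K)) i j).2) ∈ smallSet907 (K := K) n₀ ∧
      ((((g⁻¹ : G K) : Matrix (Fin 2) (Fin 2) (Adl K)) i j).2
        - ((1 : Matrix (Fin 2) (Fin 2) (Adl K)) i j).2) ∈ smallSet907 (K := K) n₀} with hW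
  have hWopen : IsOpen W := by
    have : W = ⋂ i : Fin 2, ⋂ j : Fin 2,
        ((fun g : G K => ((g : Matrix (Fin 2) (Fin 2) (Adl K)) i j).2
          - ((1 : Matrix (Fin 2) (Fin 2) (Adl K)) i j).2) ⁻¹' smallSet907 (K := K) n₀) ∩
        ((fun g : G K => (((g⁻¹ : G K) : Matrix (Fin 2) (Fin 2) (Adl K)) i j).2
          - ((1 : Matrix (Fin 2) (Fin 2) (Adl K)) i j).2) ⁻¹' smallSet907 (K := K) n₀) := by
      ext g
      simp only [hW, Set.mem_ofPred_eq, Set.mem_iInter, Set.mem_inter_iff, Set.mem_preimage]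
    rw [this]
    exact isOpen_iInter_of_finite fun i => isOpen_iInter_of_finite fun j =>
      ((isOpen_smallSet907 hn₀').preimage (hsnd i j)).inter
        ((isOpen_smallSet907 hn₀').preimage (hsnd' i j))
  have hW1 : (1 : G K) ∈ W := by
    intro i j
    constructor
    · rw [Units.val_one, sub_self]
      intro v
      change Valued.v (0 : v.adicCompletion K) ≤ _
      rw [map_zero]
      exact zero_le
    · rw [inv_one, Units.val_one, sub_self]
      intro v
      change Valued.v (0 : v.adicCompletion K) ≤ _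
      rw [map_zero]
      exact zero_le
  have hWsub : W ⊆ {g : G K | Pfin907 𝔫 g} := by
    intro g hg v
    refine locLevel_of_near v hn₀ fun i j => ⟨?_, ?_⟩
    · rw [← snd_sub_one_apply907]
      exact (hg i j).1 v
    · rw [← map_inv, ← snd_sub_one_apply907]
      exact (hg i j).2 v
  have hnhds : ((levelSubgroup907 𝔫 : Subgroup (G K)) : Set (G K)) ∈ nhds (1 : G K) :=
    Filter.mem_of_superset (hWopen.mem_nhds hW1) hWsub
  exact Subgroup.isOpen_of_mem_nhds (levelSubgroup907 𝔫) hnhds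

theorem isClosed_pfin907 {𝔫 : Ideal (𝓞 K)} (h𝔫 : 𝔫 ≠ ⊥) : IsClosed {g : G K | Pfin907 𝔫 g} :=
  Subgroup.isClosed_of_isOpen (levelSubgroup907 𝔫) (isOpen_pfin907 h𝔫)

/-! ## Integrality -/

theorem pfin907_integral {𝔫 : Ideal (𝓞 K)} {g : G K} (hg : Pfin907 𝔫 g)
    (v : HeightOneSpectrum (𝓞 K)) (i j : Fin 2) :
    finComp v g i j ∈ v.adicCompletionIntegers K := by
  have h1 := idealClosure_subset_integers907 𝔫 v (hg v i j).1
  rw [coe_finCompHom] at h1
  have h2 : finComp v g i j = (finComp v g - 1) i j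
      + (1 : Matrix (Fin 2) (Fin 2) (v.adicCompletion K)) i j := by
    rw [Matrix.sub_apply, sub_add_cancel]
  rw [h2]
  exact add_mem h1 (one_apply_mem_integers v i j)

end Fermat.Agent.LT.T2.H907

end
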