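import Mathlib
import Fermat.Agent.LT.T2.H907.Level

/-!
# Row LT, tower T2, leaf T2.06 (helper907): the zero set of the defect stabilises automorphic
functions

If the finite components of `y` lie in the level group and the defect of `y` vanishes, then
`y ∈ U(𝔫) · K_∞`, hence `φ (x * y) = φ x` for every function `φ` which is right invariant under
the level group and under the compact groups at the infinite places.
-/

set_option autoImplicit false
set_option linter.unusedSectionVars false

open IsDedekindDomain NumberField Matrix
open scoped MatrixGroups Classical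

noncomputable section

namespace Fermat.Agent.LT.T2.H907

open Fermat.Agent.LT.H556.A0 Fermat.Agent.LT.T8.H864 Fermat.Agent.LT.H51.MS4

variable {K : Type} [Field K] [NumberField K]

/-- Elements supported at the infinite places in `S`, unitary there (determinant `1` at the real
places), act trivially on the right. -/
theorem stab_arch907 {φ : G K → ℂ}
    (harch : ∀ (w : InfinitePlace K) (k : G K), IsArchCompact w k → ∀ g : G K, φ (g * k) = φ g)
    (S : Finset (InfinitePlace K)) :
    ∀ b : G K, (∀ v : HeightOneSpectrum (𝓞 K), finCompHom v b = 1) →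
      (∀ w : InfinitePlace K, w ∉ S → infCompHom w b = 1) →
      (∀ w : InfinitePlace K, infComp w b * (infComp w b)ᴴ = 1) →
      (∀ w : InfinitePlace K, w.IsReal → (infComp w b).det = 1) →
      ∀ x : G K, φ (x * b) = φ x := by
  induction S using Finset.induction_on with
  | empty =>
    intro b hfin hinf _ _ x
    have hb : b = 1 := by
      refine G_ext (fun w => ?_) (fun v => ?_)
      · rw [hinf w (Finset.notMem_empty w), map_one]
      · rw [hfin v, map_one]
    rw [hb, mul_one]
  | insert w₀ S hw₀ ih =>
    intro b hfin hinf hU hdet x
    set k : G K := locInf w₀ (infCompHom w₀ b) with hk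
    have hkcomp : infComp w₀ k = infComp w₀ b := by
      rw [hk, infComp_locInf_self, infComp_eq_infCompHom]
    have hkarch : IsArchCompact w₀ k :=
      ⟨isLocalAtInf_locInf w₀ _, by rw [hkcomp]; exact hU w₀, fun hw => by
        rw [hkcomp]; exact hdet w₀ hw⟩
    set b' : G K := b * k⁻¹ with hb'
    have hbb' : b = b' * k := by rw [hb']; group
    have hb'inf : ∀ w, infCompHom w b' = if w = w₀ then 1 else infCompHom w b := by
      intro w
      rw [hb', map_mul, map_inv]
      split_ifs with h
      · subst h
        rw [hk, infCompHom_locInf_self, mul_inv_cancel]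
      · rw [hk, infCompHom_locInf_of_ne h, inv_one, mul_one]
    have hb'comp : ∀ w, infComp w b' = if w = w₀ then 1 else infComp w b := by
      intro w
      rw [infComp_eq_infCompHom, hb'inf w]
      split_ifs with h
      · rw [Units.val_one, Matrix.map_one _ (map_zero _) (map_one _)]
      · rfl
    have h1 : φ (x * b') = φ x := by
      refine ih b' (fun v => ?_) (fun w hw => ?_) (fun w => ?_) (fun w hwr => ?_) x
      · rw [hb', map_mul, map_inv, hfin v, hk, finCompHom_locInf, inv_one, mul_one]
      · rw [hb'inf w]
        split_ifs with h
        · rfl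
        · exact hinf w (by
            rw [Finset.mem_insert, not_or]
            exact ⟨h, hw⟩)
      · rw [hb'comp w]
        split_ifs with h
        · simp
        · exact hU w
      · rw [hb'comp w]
        split_ifs with h
        · simp
        · exact hdet w hwr
    rw [hbb', ← mul_assoc, harch w₀ k hkarch, h1]

/-- **The zero set of the defect stabilises `φ`.** -/
theorem stab907 {𝔫 : Ideal (𝓞 K)} {φ : G K → ℂ}
    (hlevel : ∀ u : G K, InLevelGroup 𝔫 u → ∀ g : G K, φ (g * u) = φ g)
    (harch : ∀ (w : InfinitePlace K) (k : G K), IsArchCompact w k → ∀ g : G K, φ (g * k) = φ g)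
    {y : G K} (hP : Pfin907 𝔫 y) (hD : defect907 y = 0) (x : G K) : φ (x * y) = φ x := by
  set u : G K := cut Set.univ False y with hu
  set a : G K := cut ∅ True y with ha
  have hya : y = a * u := by
    refine G_ext (fun w => ?_) (fun v => ?_)
    · rw [map_mul, hu, ha, infCompHom_cut_false, infCompHom_cut_true, mul_one]
    · rw [map_mul, hu, ha, finCompHom_cut_of_mem _ _ (Set.mem_univ v),
        finCompHom_cut_of_notMem _ _ (Set.notMem_empty v), one_mul]
  have huL : InLevelGroup 𝔫 u := by
    rw [inLevelGroup_iff]
    refine ⟨fun w => ?_, fun v => ?_⟩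
    · rw [hu, infCompHom_cut_false]
    · rw [hu, finCompHom_cut_of_mem _ _ (Set.mem_univ v)]
      exact hP v
  have hacomp : ∀ w, infComp w a = infComp w y := by
    intro w
    rw [infComp_eq_infCompHom, infComp_eq_infCompHom, ha, infCompHom_cut_true]
  have hUy := unitary_of_defect907_eq_zero hD
  have h1 : φ (x * a) = φ x := by
    refine stab_arch907 harch Finset.univ a (fun v => ?_) (fun w hw => ?_) (fun w => ?_)
      (fun w hwr => ?_) x
    · rw [ha, finCompHom_cut_of_notMem _ _ (Set.notMem_empty v)]
    · exact absurd (Finset.mem_univ w) hw
    · rw [hacomp w]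
      exact (hUy w).1
    · rw [hacomp w]
      exact (hUy w).2 hwr
  rw [hya, ← mul_assoc, hlevel u huL, h1]

end Fermat.Agent.LT.T2.H907

end
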