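import Mathlib
import Fermat.Agent.LT.H11.LC
import Fermat.Agent.LT.T2.H907.Stab

/-!
# Row LT, tower T2, leaf T2.06 (helper907): compactness

The set `{g : Pfin907 𝔫 g ∧ defect907 g ≤ 1}` is contained in a compact subset of `GL₂(𝔸_K)`:
the entries of `g` and of `g⁻¹` are integral at the finite places and of absolute value `≤ 4` at
the infinite places.
-/

set_option autoImplicit false
set_option linter.unusedSectionVars false

open IsDedekindDomain NumberField Matrix
open scoped MatrixGroups Classical

noncomputable section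

namespace Fermat.Agent.LT.T2.H907

open Fermat.Agent.LT.H556.A0 Fermat.Agent.LT.T8.H864 Fermat.Agent.LT.H51.MS4

variable {K : Type} [Field K] [NumberField K]

/-! ## A compact box in the adeles -/

/-- The box of adeles: absolute value `≤ R` at the infinite places, integral at the finite
places. -/
def boxA907 (K : Type) [Field K] [NumberField K] (R : ℝ) : Set (Adl K) :=
  {x | (∀ w : InfinitePlace K, ‖x.1 w‖ ≤ R) ∧
    ∀ v : HeightOneSpectrum (𝓞 K), x.2 v ∈ v.adicCompletionIntegers K}

theorem isCompact_closedBall_completion907 (w : InfinitePlace K) (R : ℝ) :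
    IsCompact {x : w.Completion | ‖x‖ ≤ R} := by
  have hiso := InfinitePlace.Completion.isometry_extensionEmbedding w
  have hce : Topology.IsClosedEmbedding (InfinitePlace.Completion.extensionEmbedding w) :=
    hiso.isClosedEmbedding
  have hset : {x : w.Completion | ‖x‖ ≤ R}
      = (InfinitePlace.Completion.extensionEmbedding w) ⁻¹' Metric.closedBall (0 : ℂ) R := by
    ext x
    simp only [Set.mem_ofPred_eq, Set.mem_preimage, Metric.mem_closedBall, dist_zero_right]
    rw [hiso.norm_map_of_map_zero (map_zero _)]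
  rw [hset]
  exact hce.isCompact_preimage (isCompact_closedBall 0 R)

theorem isCompact_integralAdeles907 :
    IsCompact {x : FiniteAdeleRing (𝓞 K) K |
      ∀ v : HeightOneSpectrum (𝓞 K), x v ∈ v.adicCompletionIntegers K} := by
  have : ∀ v : HeightOneSpectrum (𝓞 K), CompactSpace (v.adicCompletionIntegers K) :=
    fun v => Fermat.Agent.LT.H11.LC.compactSpace_integers_h11 K v
  have hrange := RestrictedProduct.range_structureMap
    (R := fun v : HeightOneSpectrum (𝓞 K) => v.adicCompletion K)
    (A := fun v : HeightOneSpectrum (𝓞 K) => (v.adicCompletionIntegers K : Set (v.adicCompletion K)))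
    (𝓕 := Filter.cofinite)
  have hcont : Continuous (RestrictedProduct.structureMap
      (fun v : HeightOneSpectrum (𝓞 K) => v.adicCompletion K)
      (fun v : HeightOneSpectrum (𝓞 K) =>
        (v.adicCompletionIntegers K : Set (v.adicCompletion K))) Filter.cofinite) :=
    RestrictedProduct.isEmbedding_structureMap.continuous
  have := isCompact_range hcont
  rw [hrange] at this
  exact this

theorem isCompact_boxA907 (R : ℝ) : IsCompact (boxA907 K R) := by
  have h1 : IsCompact (X := InfiniteAdeleRing K)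
      (Set.pi Set.univ fun w : InfinitePlace K => {x : w.Completion | ‖x‖ ≤ R}) :=
    isCompact_univ_pi (fun w : InfinitePlace K => isCompact_closedBall_completion907 w R)
  have h2 := isCompact_integralAdeles907 (K := K)
  have h3 : IsCompact (X := InfiniteAdeleRing K × FiniteAdeleRing (𝓞 K) K)
      ((Set.pi Set.univ fun w : InfinitePlace K => {x : w.Completion | ‖x‖ ≤ R}) ×ˢ
        {x : FiniteAdeleRing (𝓞 K) K |
          ∀ v : HeightOneSpectrum (𝓞 K), x v ∈ v.adicCompletionIntegers K}) := h1.prod h2
  have hset : boxA907 K R = ((Set.pi Set.univ fun w : InfinitePlace K =>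
      {x : w.Completion | ‖x‖ ≤ R}) ×ˢ {x : FiniteAdeleRing (𝓞 K) K |
          ∀ v : HeightOneSpectrum (𝓞 K), x v ∈ v.adicCompletionIntegers K} :
      Set (InfiniteAdeleRing K × FiniteAdeleRing (𝓞 K) K)) := by
    refine Set.ext fun x => ?_
    constructor
    · rintro ⟨h1, h2⟩
      exact ⟨fun w _ => h1 w, h2⟩
    · rintro ⟨h1, h2⟩
      exact ⟨fun w => h1 w (Set.mem_univ w), h2⟩
  rw [hset]
  exact h3

/-! ## A compact box in `GL₂(𝔸_K)` -/

/-- The box of `GL₂(𝔸_K)`: all entries of `g` and of `g⁻¹` lie in `boxA907 K R`. -/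
def boxG907 (K : Type) [Field K] [NumberField K] (R : ℝ) : Set (G K) :=
  {g | ∀ i j : Fin 2, (g : Matrix (Fin 2) (Fin 2) (Adl K)) i j ∈ boxA907 K R ∧
    ((g⁻¹ : G K) : Matrix (Fin 2) (Fin 2) (Adl K)) i j ∈ boxA907 K R}

theorem isCompact_boxM907 (R : ℝ) :
    IsCompact {M : Matrix (Fin 2) (Fin 2) (Adl K) | ∀ i j : Fin 2, M i j ∈ boxA907 K R} := by
  have h := isCompact_univ_pi (fun _ : Fin 2 => isCompact_univ_pi
    (fun _ : Fin 2 => isCompact_boxA907 (K := K) R))
  have hset : {M : Matrix (Fin 2) (Fin 2) (Adl K) | ∀ i j : Fin 2, M i j ∈ boxA907 K R}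
      = (Set.pi Set.univ fun _ : Fin 2 => Set.pi Set.univ fun _ : Fin 2 => boxA907 K R :
        Set (Fin 2 → Fin 2 → Adl K)) := by
    refine Set.ext fun M => ?_
    constructor
    · intro hM i _ j _
      exact hM i j
    · intro hM i j
      exact hM i (Set.mem_univ i) j (Set.mem_univ j)
  rw [hset]
  exact h

theorem isCompact_boxG907 (R : ℝ) : IsCompact (boxG907 K R) := by
  have := Fermat.Agent.LT.H11.LC.t2Space_adeleRing_h11 K
  have := Fermat.Agent.LT.H11.LC.t2Space_matrix_h11 (Fin 2) (NumberField.AdeleRing (𝓞 K) K)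
  have hce : Topology.IsClosedEmbedding
      (Units.embedProduct (Matrix (Fin 2) (Fin 2) (Adl K))) :=
    Units.isClosedEmbedding_embedProduct
  set Q : Set (Matrix (Fin 2) (Fin 2) (Adl K)) := {M | ∀ i j : Fin 2, M i j ∈ boxA907 K R}
    with hQ
  have hQc : IsCompact Q := isCompact_boxM907 R
  have hQop : IsCompact (MulOpposite.op '' Q) := hQc.image MulOpposite.continuous_op
  have hprod : IsCompact (Q ×ˢ (MulOpposite.op '' Q)) := hQc.prod hQop
  have hset : boxG907 K R
      = (Units.embedProduct (Matrix (Fin 2) (Fin 2) (Adl K))) ⁻¹' (Q ×ˢ (MulOpposite.op '' Q)) := by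
    ext g
    simp only [boxG907, Set.mem_ofPred_eq, Set.mem_preimage, Set.mem_prod, Units.embedProduct_apply,
      Set.mem_image, MulOpposite.op_inj, exists_eq_right, hQ]
    constructor
    · intro h
      exact ⟨fun i j => (h i j).1, fun i j => (h i j).2⟩
    · rintro ⟨h1, h2⟩ i j
      exact ⟨h1 i j, h2 i j⟩
  rw [hset]
  exact hce.isCompact_preimage hprod

/-! ## The bound -/

theorem norm_fst_eq907 (w : InfinitePlace K) (g : G K) (i j : Fin 2) :
    ‖((g : Matrix (Fin 2) (Fin 2) (Adl K)) i j).1 w‖ = ‖infComp w g i j‖ := by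
  have hiso := InfinitePlace.Completion.isometry_extensionEmbedding w
  exact (hiso.norm_map_of_map_zero (map_zero _) _).symm

theorem normSq_entry_le_frob907 (M : Matrix (Fin 2) (Fin 2) ℂ) (i j : Fin 2) :
    Complex.normSq (M i j) ≤ frob907 M := by
  unfold frob907
  refine le_trans ?_ (Finset.single_le_sum (f := fun i => ∑ j, Complex.normSq (M i j))
    (fun i _ => Finset.sum_nonneg fun j _ => Complex.normSq_nonneg _) (Finset.mem_univ i))
  exact Finset.single_le_sum (f := fun j => Complex.normSq (M i j))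
    (fun j _ => Complex.normSq_nonneg _) (Finset.mem_univ j)

theorem norm_infComp_le907 {g : G K} (hD : defect907 g ≤ 1) (w : InfinitePlace K) (i j : Fin 2) :
    ‖infComp w g i j‖ ≤ 4 := by
  have hd := dW907_pos w g
  have h1 : del907 w g ≤ 1 := (del907_le_defect w g).trans hD
  have h2 : tau907 w g ≤ 1 := (tau907_le_defect w g).trans hD
  have hd3 : dW907 w g ≤ 3 := by
    unfold del907 at h1
    have hinv : 0 < (dW907 w g)⁻¹ := inv_pos.mpr hd
    linarith
  have hf : frob907 (infComp w g) ≤ 12 := by
    unfold tau907 at h2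
    have h3 : frob907 (infComp w g) / (2 * dW907 w g) ≤ 2 := by linarith
    rw [div_le_iff₀ (by positivity)] at h3
    nlinarith
  have hn := normSq_entry_le_frob907 (infComp w g) i j
  rw [Complex.normSq_eq_norm_sq] at hn
  have hnn := norm_nonneg (infComp w g i j)
  nlinarith

/-- The support of the bump functions lies in the compact box. -/
theorem mem_boxG907 {𝔫 : Ideal (𝓞 K)} {g : G K} (hP : Pfin907 𝔫 g) (hD : defect907 g ≤ 1) :
    g ∈ boxG907 K 4 := by
  have hP' : Pfin907 𝔫 g⁻¹ := pfin907_inv hP
  have hD' : defect907 g⁻¹ ≤ 1 := by rw [defect907_inv]; exact hD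
  intro i j
  refine ⟨⟨fun w => ?_, fun v => ?_⟩, ⟨fun w => ?_, fun v => ?_⟩⟩
  · rw [norm_fst_eq907]
    exact norm_infComp_le907 hD w i j
  · exact pfin907_integral hP v i j
  · rw [norm_fst_eq907]
    exact norm_infComp_le907 hD' w i j
  · exact pfin907_integral hP' v i j

end Fermat.Agent.LT.T2.H907

end
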