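import Mathlib
import Fermat.Agent.LT.T2.Spec
import Fermat.Agent.LT.T2.H907.Compact

/-!
# Row LT, tower T2, leaf T2.06 (helper907): the spherical bump functions

`bump907 𝔫 η g = 1_{U(𝔫)}(g_fin) · s(1 - defect907 g / η)` (`s` = `Real.smoothTransition`) and
`testFn907 𝔫 η c = c · bump907 𝔫 η` are spherical test functions of level `U(𝔫)` in the sense of
`T2.IsSphTestFn`, self-adjoint, supported in `{Pfin907 ∧ defect907 < η}`.
-/

set_option autoImplicit false
set_option linter.unusedSectionVars false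

open IsDedekindDomain NumberField Matrix
open scoped MatrixGroups Classical ContDiff

noncomputable section

namespace Fermat.Agent.LT.T2.H907

open Fermat.Agent.LT.H556.A0 Fermat.Agent.LT.T8.H864 Fermat.Agent.LT.H51.MS4

variable {K : Type} [Field K] [NumberField K]

/-- The bump function. -/
def bump907 (𝔫 : Ideal (𝓞 K)) (η : ℝ) (g : G K) : ℝ :=
  Set.indicator {g : G K | Pfin907 𝔫 g} (fun g => Real.smoothTransition (1 - defect907 g / η)) g

theorem bump907_of_pfin {𝔫 : Ideal (𝓞 K)} {η : ℝ} {g : G K} (h : Pfin907 𝔫 g) :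
    bump907 𝔫 η g = Real.smoothTransition (1 - defect907 g / η) :=
  Set.indicator_of_mem (s := {g : G K | Pfin907 𝔫 g}) h _

theorem bump907_of_not_pfin {𝔫 : Ideal (𝓞 K)} {η : ℝ} {g : G K} (h : ¬ Pfin907 𝔫 g) :
    bump907 𝔫 η g = 0 :=
  Set.indicator_of_notMem (s := {g : G K | Pfin907 𝔫 g}) h _

theorem bump907_nonneg (𝔫 : Ideal (𝓞 K)) (η : ℝ) (g : G K) : 0 ≤ bump907 𝔫 η g := by
  by_cases h : Pfin907 𝔫 g
  · rw [bump907_of_pfin h]; exact Real.smoothTransition.nonneg _
  · rw [bump907_of_not_pfin h]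

theorem bump907_le_one (𝔫 : Ideal (𝓞 K)) (η : ℝ) (g : G K) : bump907 𝔫 η g ≤ 1 := by
  by_cases h : Pfin907 𝔫 g
  · rw [bump907_of_pfin h]; exact Real.smoothTransition.le_one _
  · rw [bump907_of_not_pfin h]; exact zero_le_one

/-- The support of the bump function. -/
theorem pfin_of_bump907_ne_zero {𝔫 : Ideal (𝓞 K)} {η : ℝ} (hη : 0 < η) {g : G K}
    (h : bump907 𝔫 η g ≠ 0) : Pfin907 𝔫 g ∧ defect907 g < η := by
  by_cases hP : Pfin907 𝔫 g
  · refine ⟨hP, ?_⟩
    rw [bump907_of_pfin hP] at h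
    by_contra hcon
    rw [not_lt] at hcon
    apply h
    apply Real.smoothTransition.zero_of_nonpos
    rw [sub_nonpos, le_div_iff₀ hη, one_mul]
    exact hcon
  · exact absurd (bump907_of_not_pfin hP) h

theorem defect907_one : defect907 (1 : G K) = 0 := by
  rw [defect907_eq_zero_iff]
  intro w
  have hd : dW907 w (1 : G K) = 1 := dW907_one w
  have hf : frob907 (infComp w (1 : G K)) = 2 := by
    rw [infComp_one, frob907_eq]
    simp
    norm_num
  refine ⟨?_, ?_, ?_⟩
  · unfold tau907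
    rw [hd, hf]
    norm_num
  · unfold sig907
    split_ifs
    · rw [hd, infComp_one, Matrix.det_one]
      simp
    · rfl
  · unfold del907
    rw [hd]
    norm_num

theorem bump907_one (𝔫 : Ideal (𝓞 K)) (η : ℝ) : bump907 𝔫 η (1 : G K) = 1 := by
  rw [bump907_of_pfin (pfin907_one 𝔫), defect907_one, zero_div, sub_zero]
  exact Real.smoothTransition.one

theorem continuous_bump907 {𝔫 : Ideal (𝓞 K)} (h𝔫 : 𝔫 ≠ ⊥) (η : ℝ) :
    Continuous (bump907 𝔫 η) := by
  have hclopen : IsClopen {g : G K | Pfin907 𝔫 g} := ⟨isClosed_pfin907 h𝔫, isOpen_pfin907 h𝔫⟩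
  have hcont : Continuous fun g : G K => Real.smoothTransition (1 - defect907 g / η) :=
    Real.smoothTransition.continuous.comp
      (continuous_const.sub (continuous_defect907.div_const η))
  exact hclopen.continuous_indicator hcont

theorem hasCompactSupport_bump907 {𝔫 : Ideal (𝓞 K)} {η : ℝ} (hη : 0 < η) (hη1 : η ≤ 1) :
    HasCompactSupport (bump907 𝔫 η) := by
  have := Fermat.Agent.LT.H11.LC.t2Space_GL2_adeleRing_h11 K
  refine HasCompactSupport.of_support_subset_isCompact (isCompact_boxG907 (K := K) 4) ?_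
  intro g hg
  obtain ⟨hP, hD⟩ := pfin_of_bump907_ne_zero hη hg
  exact mem_boxG907 hP (hD.le.trans hη1)

/-! ## Invariance -/

theorem infComp_eq_one_of_trivAtInf {w : InfinitePlace K} {u : G K} (h : TrivAtInf w u) :
    infComp w u = 1 := by
  rw [infComp_eq_infCompHom, (trivAtInf_iff_hom w u).1 h, Units.val_one,
    Matrix.map_one _ (map_zero _) (map_one _)]

/-- Elements which are unitary of determinant one (at the real places) at every infinite place
and lie in the level group at the finite places. -/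
def IsStab907 (𝔫 : Ideal (𝓞 K)) (k : G K) : Prop :=
  Pfin907 𝔫 k ∧ (∀ w, infComp w k * (infComp w k)ᴴ = 1) ∧
    ∀ w, w.IsReal → (infComp w k).det = 1

theorem isStab907_of_inLevelGroup {𝔫 : Ideal (𝓞 K)} {u : G K} (hu : InLevelGroup 𝔫 u) :
    IsStab907 𝔫 u := by
  refine ⟨pfin907_of_inLevelGroup hu, fun w => ?_, fun w _ => ?_⟩
  · rw [infComp_eq_one_of_trivAtInf (hu.1 w)]; simp
  · rw [infComp_eq_one_of_trivAtInf (hu.1 w)]; simp

theorem isStab907_of_isArchCompact {𝔫 : Ideal (𝓞 K)} {w₀ : InfinitePlace K} {k : G K}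
    (hk : IsArchCompact w₀ k) : IsStab907 𝔫 k := by
  obtain ⟨⟨hloc, hfin⟩, hU, hdet⟩ := hk
  refine ⟨pfin907_of_trivAtFin hfin, fun w => ?_, fun w hw => ?_⟩
  · by_cases h : w = w₀
    · subst h; exact hU
    · rw [infComp_eq_one_of_trivAtInf (hloc w h)]; simp
  · by_cases h : w = w₀
    · subst h; exact hdet hw
    · rw [infComp_eq_one_of_trivAtInf (hloc w h)]; simp

theorem bump907_mul_right {𝔫 : Ideal (𝓞 K)} (η : ℝ) {k : G K} (hk : IsStab907 𝔫 k) (g : G K) :
    bump907 𝔫 η (g * k) = bump907 𝔫 η g := by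
  by_cases h : Pfin907 𝔫 g
  · rw [bump907_of_pfin h, bump907_of_pfin ((pfin907_mul_right_iff hk.1).2 h),
      defect907_mul_right hk.2.1 hk.2.2]
  · rw [bump907_of_not_pfin h, bump907_of_not_pfin (fun H => h ((pfin907_mul_right_iff hk.1).1 H))]

theorem bump907_mul_left {𝔫 : Ideal (𝓞 K)} (η : ℝ) {k : G K} (hk : IsStab907 𝔫 k) (g : G K) :
    bump907 𝔫 η (k * g) = bump907 𝔫 η g := by
  by_cases h : Pfin907 𝔫 g
  · rw [bump907_of_pfin h, bump907_of_pfin ((pfin907_mul_left_iff hk.1).2 h),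
      defect907_mul_left hk.2.1 hk.2.2]
  · rw [bump907_of_not_pfin h, bump907_of_not_pfin (fun H => h ((pfin907_mul_left_iff hk.1).1 H))]

theorem bump907_inv (𝔫 : Ideal (𝓞 K)) (η : ℝ) (g : G K) :
    bump907 𝔫 η g⁻¹ = bump907 𝔫 η g := by
  by_cases h : Pfin907 𝔫 g
  · rw [bump907_of_pfin h, bump907_of_pfin (pfin907_inv h), defect907_inv]
  · rw [bump907_of_not_pfin h, bump907_of_not_pfin (fun H => h (pfin907_inv_iff.1 H))]

/-! ## Smoothness at infinity -/

theorem contDiff_bump907 (𝔫 : Ideal (𝓞 K)) (η : ℝ) {n : ℕ} {h : (Fin n → ℝ) → G K}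
    (hfin : ∀ (t : Fin n → ℝ) (v : HeightOneSpectrum (𝓞 K)), TrivAtFin v (h t))
    (hh : ∀ (w : InfinitePlace K) (i j : Fin 2), ContDiff ℝ ∞ (fun t => infComp w (h t) i j))
    (g : G K) : ContDiff ℝ ∞ (fun t => bump907 𝔫 η (g * h t)) := by
  have hP : ∀ t, Pfin907 𝔫 (g * h t) ↔ Pfin907 𝔫 g := fun t =>
    pfin907_mul_right_iff (pfin907_of_trivAtFin (hfin t))
  by_cases hg : Pfin907 𝔫 g
  · have : (fun t => bump907 𝔫 η (g * h t))
        = fun t => Real.smoothTransition (1 - defect907 (g * h t) / η) := by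
      funext t
      exact bump907_of_pfin ((hP t).2 hg)
    rw [this]
    exact Real.smoothTransition.contDiff.comp
      (contDiff_const.sub ((contDiff_defect907 g hh).div_const η))
  · have : (fun t => bump907 𝔫 η (g * h t)) = fun _ => (0 : ℝ) := by
      funext t
      exact bump907_of_not_pfin (fun H => hg ((hP t).1 H))
    rw [this]
    exact contDiff_const

/-! ## The test functions -/

/-- The test function `c · bump907 𝔫 η`. -/
def testFn907 (𝔫 : Ideal (𝓞 K)) (η c : ℝ) (g : G K) : ℂ := ((c * bump907 𝔫 η g : ℝ) : ℂ)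

theorem isTestFn_testFn907 {𝔫 : Ideal (𝓞 K)} (h𝔫 : 𝔫 ≠ ⊥) {η : ℝ} (hη : 0 < η) (hη1 : η ≤ 1)
    (c : ℝ) : IsTestFn 𝔫 (testFn907 𝔫 η c) where
  cont := Complex.continuous_ofReal.comp (continuous_const.mul (continuous_bump907 h𝔫 η))
  smooth := by
    intro n h hfin hh g
    exact Complex.ofRealCLM.contDiff.comp (contDiff_const.mul (contDiff_bump907 𝔫 η hfin hh g))
  cpt := by
    have h1 := hasCompactSupport_bump907 (𝔫 := 𝔫) hη hη1
    have h2 : HasCompactSupport fun g : G K => c * bump907 𝔫 η g := h1.mul_left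
    exact h2.comp_left (g := fun r : ℝ => (r : ℂ)) Complex.ofReal_zero
  level_right := fun u hu g => by
    unfold testFn907
    rw [bump907_mul_right η (isStab907_of_inLevelGroup hu)]
  level_left := fun u hu g => by
    unfold testFn907
    rw [bump907_mul_left η (isStab907_of_inLevelGroup hu)]
  arch_right := fun w k hk g => by
    unfold testFn907
    rw [bump907_mul_right η (isStab907_of_isArchCompact hk)]
  arch_left := fun w k hk g => by
    unfold testFn907
    rw [bump907_mul_left η (isStab907_of_isArchCompact hk)]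

theorem isSphTestFn_testFn907 {𝔫 : Ideal (𝓞 K)} (h𝔫 : 𝔫 ≠ ⊥) {η : ℝ} (hη : 0 < η) (hη1 : η ≤ 1)
    (c : ℝ) : IsSphTestFn 𝔫 (testFn907 𝔫 η c) where
  test := isTestFn_testFn907 h𝔫 hη hη1 c
  bad_unit := by
    intro g hg v _ i j
    have hb : bump907 𝔫 η g ≠ 0 := by
      intro h0
      apply hg
      unfold testFn907
      rw [h0, mul_zero, Complex.ofReal_zero]
    have hP := (pfin_of_bump907_ne_zero hη hb).1 v i j
    refine ⟨?_, ?_⟩
    · rw [← coe_finCompHom]
      exact hP.1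
    · rw [← coe_finCompHom, map_inv]
      exact hP.2

theorem adj_testFn907 (𝔫 : Ideal (𝓞 K)) (η c : ℝ) : adj (testFn907 𝔫 η c) = testFn907 𝔫 η c := by
  funext g
  unfold adj testFn907
  rw [bump907_inv, Complex.conj_ofReal]

end Fermat.Agent.LT.T2.H907

end
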