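import Mathlib
import Fermat.Agent.LT.T2.H907.TestFn

/-!
# Row LT, tower T2, leaf T2.06 (helper907): `ApproxId`

`leaf06_h907 : T2.Leaf06 K` (frozen Prop of `Fermat/Agent/LT/T2/Spec.lean`, v3): every cusp
function `φ` is an `L²`-limit of `R(f) φ`, `f` spherical and self-adjoint.

Proof.  `f_k = c_k · bump907 𝔫 (1/(k+1))`, normalised by `∫ f_k = 1`.  Then
`R(f_k) φ (x) - φ (x) = ∫ (φ (x h) - φ (x)) f_k (h) dh`.  The supports of the `f_k` lie in ONE
compact set and shrink to the zero set of the defect, on which `φ (x h) = φ (x)`; by compactness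
the integrand is uniformly small on the support of `f_k` for `k` large (`x` fixed).  So
`R(f_k) φ → φ` pointwise, with the uniform bound `2 sup |φ|`; dominated convergence on the
fundamental domain (finite measure) gives the convergence in `L²`.
-/

set_option autoImplicit false
set_option linter.unusedSectionVars false

open IsDedekindDomain NumberField Matrix MeasureTheory Filter Topology
open scoped MatrixGroups Classical

noncomputable section

namespace Fermat.Agent.LT.T2.H907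

open Fermat.Agent.LT.H556.A0 Fermat.Agent.LT.T8.H864 Fermat.Agent.LT.H51.MS4

attribute [local instance] Fermat.Agent.LT.T2.borelG

variable {K : Type} [Field K] [NumberField K]

/-! ## Step 1: uniform smallness on the supports -/

theorem exists_close907 {𝔫 : Ideal (𝓞 K)} (h𝔫 : 𝔫 ≠ ⊥) {φ : G K → ℂ} (hφc : Continuous φ)
    (hlevel : ∀ u : G K, InLevelGroup 𝔫 u → ∀ g : G K, φ (g * u) = φ g)
    (harch : ∀ (w : InfinitePlace K) (k : G K), IsArchCompact w k → ∀ g : G K, φ (g * k) = φ g)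
    (x : G K) {ε : ℝ} (hε : 0 < ε) :
    ∃ k₀ : ℕ, ∀ h : G K, Pfin907 𝔫 h → defect907 h ≤ 1 / ((k₀ : ℝ) + 1) →
      ‖φ (x * h) - φ x‖ < ε := by
  have := Fermat.Agent.LT.H11.LC.t2Space_GL2_adeleRing_h11 K
  by_contra hcon
  push Not at hcon
  set E : ℕ → Set (G K) := fun k => boxG907 K 4 ∩
    ({h | Pfin907 𝔫 h} ∩ ({h | defect907 h ≤ 1 / ((k : ℝ) + 1)} ∩
      {h | ε ≤ ‖φ (x * h) - φ x‖})) with hE
  have hbox : IsCompact (boxG907 K 4) := isCompact_boxG907 4
  have hclosed : ∀ k, IsClosed (E k) := fun k => by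
    refine hbox.isClosed.inter ((isClosed_pfin907 h𝔫).inter (IsClosed.inter ?_ ?_))
    · exact isClosed_le continuous_defect907 continuous_const
    · exact isClosed_le continuous_const
        (((hφc.comp (continuous_const.mul continuous_id)).sub continuous_const).norm)
  have hk1 : ∀ k : ℕ, (1 : ℝ) / ((k : ℝ) + 1) ≤ 1 := fun k => by
    rw [div_le_one (by positivity)]
    have : (0 : ℝ) ≤ k := Nat.cast_nonneg k
    linarith
  have hne : ∀ k, (E k).Nonempty := fun k => by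
    obtain ⟨h, hP, hD, hε'⟩ := hcon k
    exact ⟨h, mem_boxG907 hP (hD.trans (hk1 k)), hP, hD, hε'⟩
  have hmono : ∀ k, E (k + 1) ⊆ E k := fun k h hh => by
    refine ⟨hh.1, hh.2.1, ?_, hh.2.2.2⟩
    have h1 : defect907 h ≤ 1 / (((k + 1 : ℕ) : ℝ) + 1) := hh.2.2.1
    refine h1.trans ?_
    push_cast
    apply one_div_le_one_div_of_le (by positivity)
    linarith
  have hcomp0 : IsCompact (E 0) := hbox.of_isClosed_subset (hclosed 0) Set.inter_subset_left
  obtain ⟨h, hh⟩ := IsCompact.nonempty_iInter_of_sequence_nonempty_isCompact_isClosed E hmono hne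
    hcomp0 hclosed
  rw [Set.mem_iInter] at hh
  have hP : Pfin907 𝔫 h := (hh 0).2.1
  have hD0 : defect907 h = 0 := by
    refine le_antisymm ?_ (defect907_nonneg h)
    by_contra hpos
    rw [not_le] at hpos
    obtain ⟨k, hk⟩ := exists_nat_one_div_lt hpos
    have := (hh k).2.2.1
    change defect907 h ≤ 1 / ((k : ℝ) + 1) at this
    linarith
  have hε' : ε ≤ ‖φ (x * h) - φ x‖ := (hh 0).2.2.2
  rw [stab907 hlevel harch hP hD0 x, sub_self, norm_zero] at hε'
  linarith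

/-! ## Step 2: normalisation -/

/-- `G K` with its Borel `σ`-algebra is a Borel space. -/
theorem borelSpace_G907 : BorelSpace (G K) := ⟨rfl⟩

theorem integrable_bump907 (F : Frame K) {𝔫 : Ideal (𝓞 K)} (h𝔫 : 𝔫 ≠ ⊥) {η : ℝ} (hη : 0 < η)
    (hη1 : η ≤ 1) : Integrable (bump907 𝔫 η) F.μ := by
  have := borelSpace_G907 (K := K)
  have := F.haar
  exact (continuous_bump907 h𝔫 η).integrable_of_hasCompactSupport
    (hasCompactSupport_bump907 hη hη1)

theorem integral_bump907_pos (F : Frame K) {𝔫 : Ideal (𝓞 K)} (h𝔫 : 𝔫 ≠ ⊥) {η : ℝ} (hη : 0 < η)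
    (hη1 : η ≤ 1) : 0 < ∫ g, bump907 𝔫 η g ∂F.μ := by
  have := borelSpace_G907 (K := K)
  have := F.haar
  exact (continuous_bump907 h𝔫 η).integral_pos_of_hasCompactSupport_nonneg_nonzero
    (hasCompactSupport_bump907 hη hη1) (fun g => bump907_nonneg 𝔫 η g) (x := 1)
    (by rw [bump907_one]; exact one_ne_zero)

/-- The normalising constant. -/
def cst907 (F : Frame K) (𝔫 : Ideal (𝓞 K)) (η : ℝ) : ℝ := (∫ g, bump907 𝔫 η g ∂F.μ)⁻¹

theorem cst907_pos (F : Frame K) {𝔫 : Ideal (𝓞 K)} (h𝔫 : 𝔫 ≠ ⊥) {η : ℝ} (hη : 0 < η)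
    (hη1 : η ≤ 1) : 0 < cst907 F 𝔫 η :=
  inv_pos.mpr (integral_bump907_pos F h𝔫 hη hη1)

theorem integral_cst_mul_bump907 (F : Frame K) {𝔫 : Ideal (𝓞 K)} (h𝔫 : 𝔫 ≠ ⊥) {η : ℝ}
    (hη : 0 < η) (hη1 : η ≤ 1) : ∫ g, cst907 F 𝔫 η * bump907 𝔫 η g ∂F.μ = 1 := by
  rw [integral_const_mul]
  exact inv_mul_cancel₀ (integral_bump907_pos F h𝔫 hη hη1).ne'

/-- The normalised bump function. -/
def apx907 (F : Frame K) (𝔫 : Ideal (𝓞 K)) (η : ℝ) : G K → ℂ := testFn907 𝔫 η (cst907 F 𝔫 η)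

theorem integral_apx907 (F : Frame K) {𝔫 : Ideal (𝓞 K)} (h𝔫 : 𝔫 ≠ ⊥) {η : ℝ}
    (hη : 0 < η) (hη1 : η ≤ 1) : ∫ g, apx907 F 𝔫 η g ∂F.μ = 1 := by
  have h1 : ∫ g, ((cst907 F 𝔫 η * bump907 𝔫 η g : ℝ) : ℂ) ∂F.μ
      = ((∫ g, cst907 F 𝔫 η * bump907 𝔫 η g ∂F.μ : ℝ) : ℂ) :=
    integral_ofReal (μ := F.μ) (𝕜 := ℂ) (f := fun g => cst907 F 𝔫 η * bump907 𝔫 η g)
  rw [integral_cst_mul_bump907 F h𝔫 hη hη1, Complex.ofReal_one] at h1
  exact h1

/-! ## Step 3: the pointwise estimate -/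

theorem norm_conv_sub_le907 (F : Frame K) {𝔫 : Ideal (𝓞 K)} (h𝔫 : 𝔫 ≠ ⊥) {η : ℝ}
    (hη : 0 < η) (hη1 : η ≤ 1) {φ : G K → ℂ} (hφc : Continuous φ) (x : G K) {δ : ℝ}
    (hδ : ∀ h : G K, bump907 𝔫 η h ≠ 0 → ‖φ (x * h) - φ x‖ ≤ δ) :
    ‖conv F (apx907 F 𝔫 η) φ x - φ x‖ ≤ δ := by
  have := borelSpace_G907 (K := K)
  have := F.haar
  have hfT := isTestFn_testFn907 h𝔫 hη hη1 (cst907 F 𝔫 η)
  have hfc : Continuous (apx907 F 𝔫 η) := hfT.cont
  have hfs : HasCompactSupport (apx907 F 𝔫 η) := hfT.cpt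
  have hc := cst907_pos F h𝔫 hη hη1
  have hI1 : Integrable (fun h => φ (x * h) * apx907 F 𝔫 η h) F.μ :=
    ((hφc.comp (continuous_const.mul continuous_id)).mul hfc).integrable_of_hasCompactSupport
      hfs.mul_left
  have hI2 : Integrable (fun h => φ x * apx907 F 𝔫 η h) F.μ :=
    (continuous_const.mul hfc).integrable_of_hasCompactSupport hfs.mul_left
  have hIb : Integrable (fun h => δ * (cst907 F 𝔫 η * bump907 𝔫 η h)) F.μ :=
    ((integrable_bump907 F h𝔫 hη hη1).const_mul _).const_mul _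
  have heq : conv F (apx907 F 𝔫 η) φ x - φ x
      = ∫ h, (φ (x * h) - φ x) * apx907 F 𝔫 η h ∂F.μ := by
    have h1 : φ x = ∫ h, φ x * apx907 F 𝔫 η h ∂F.μ := by
      rw [integral_const_mul, integral_apx907 F h𝔫 hη hη1, mul_one]
    have h2 : conv F (apx907 F 𝔫 η) φ x - φ x
        = (∫ h, φ (x * h) * apx907 F 𝔫 η h ∂F.μ) - ∫ h, φ x * apx907 F 𝔫 η h ∂F.μ :=
      congrArg (fun z => conv F (apx907 F 𝔫 η) φ x - z) h1
    rw [h2, ← integral_sub hI1 hI2]
    refine integral_congr_ae (Eventually.of_forall fun h => ?_)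
    simp only [sub_mul]
  rw [heq]
  have hbound : ∀ h, ‖(φ (x * h) - φ x) * apx907 F 𝔫 η h‖
      ≤ δ * (cst907 F 𝔫 η * bump907 𝔫 η h) := by
    intro h
    have hnf : ‖apx907 F 𝔫 η h‖ = cst907 F 𝔫 η * bump907 𝔫 η h := by
      unfold apx907 testFn907
      rw [Complex.norm_real, Real.norm_eq_abs,
        abs_of_nonneg (mul_nonneg hc.le (bump907_nonneg 𝔫 η h))]
    rw [norm_mul, hnf]
    by_cases hb : bump907 𝔫 η h = 0
    · rw [hb]; simp
    · exact mul_le_mul_of_nonneg_right (hδ h hb)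
        (mul_nonneg hc.le (bump907_nonneg 𝔫 η h))
  have := norm_integral_le_of_norm_le hIb (Eventually.of_forall hbound)
  rw [integral_const_mul, integral_cst_mul_bump907 F h𝔫 hη hη1, mul_one] at this
  exact this

/-! ## Step 4: the leaf -/

theorem approxId_h907 {𝔫 : Ideal (𝓞 K)} (h𝔫 : 𝔫 ≠ ⊥) (hC : ConvCusp K 𝔫) : ApproxId K 𝔫 := by
  intro F φ hφ ε hε
  have := borelSpace_G907 (K := K)
  have := F.haar
  obtain ⟨B, hB⟩ := hφ.bdd
  have hB0 : 0 ≤ B := (norm_nonneg _).trans (hB 1)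
  -- the sequence
  set η : ℕ → ℝ := fun k => 1 / ((k : ℝ) + 1) with hη
  have hηpos : ∀ k, 0 < η k := fun k => by positivity
  have hη1 : ∀ k, η k ≤ 1 := fun k => by
    rw [hη, div_le_one (by positivity)]
    have : (0 : ℝ) ≤ k := Nat.cast_nonneg k
    linarith
  set ψ : ℕ → G K → ℂ := fun k g => conv F (apx907 F 𝔫 (η k)) φ g - φ g with hψ
  have hψc : ∀ k, Continuous (ψ k) := fun k =>
    ((hC F).2.2.1 _ φ (isTestFn_testFn907 h𝔫 (hηpos k) (hη1 k) _) hφ).cont.sub hφ.cont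
  have hψb : ∀ k g, ‖ψ k g‖ ≤ 2 * B := fun k g => by
    refine norm_conv_sub_le907 F h𝔫 (hηpos k) (hη1 k) hφ.cont g fun h _ => ?_
    calc ‖φ (g * h) - φ g‖ ≤ ‖φ (g * h)‖ + ‖φ g‖ := norm_sub_le _ _
      _ ≤ B + B := add_le_add (hB _) (hB _)
      _ = 2 * B := by ring
  have hψlim : ∀ g, Tendsto (fun k => ψ k g) atTop (𝓝 0) := fun g => by
    rw [Metric.tendsto_atTop]
    intro ε' hε'
    obtain ⟨k₀, hk₀⟩ := exists_close907 h𝔫 hφ.cont hφ.level_inv hφ.arch_compact g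
      (half_pos hε')
    refine ⟨k₀, fun k hk => ?_⟩
    rw [dist_zero_right]
    have hle : ‖ψ k g‖ ≤ ε' / 2 := by
      refine norm_conv_sub_le907 F h𝔫 (hηpos k) (hη1 k) hφ.cont g fun h hb => ?_
      obtain ⟨hP, hD⟩ := pfin_of_bump907_ne_zero (hηpos k) hb
      refine (hk₀ h hP (hD.le.trans ?_)).le
      rw [hη]
      apply one_div_le_one_div_of_le (by positivity)
      have : (k₀ : ℝ) ≤ k := Nat.cast_le.mpr hk
      linarith
    linarith
  -- dominated convergence on the fundamental domain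
  have hfin : IsFiniteMeasure (F.μ.restrict F.D) :=
    ⟨by rw [Measure.restrict_apply_univ]; exact F.fin⟩
  have hlim : Tendsto (fun k => ∫ g in F.D, ψ k g * (starRingEnd ℂ) (ψ k g) ∂F.μ) atTop
      (𝓝 (∫ _ in F.D, (0 : ℂ) ∂F.μ)) := by
    refine tendsto_integral_of_dominated_convergence (fun _ => (2 * B) ^ 2)
      (fun k => ?_) (integrable_const _) (fun k => Eventually.of_forall fun g => ?_)
      (Eventually.of_forall fun g => ?_)
    · exact ((hψc k).mul (Complex.continuous_conj.comp (hψc k))).aestronglyMeasurable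
    · rw [norm_mul, RCLike.norm_conj, ← sq]
      exact pow_le_pow_left₀ (norm_nonneg _) (hψb k g) 2
    · have := (hψlim g).mul ((Complex.continuous_conj.tendsto 0).comp (hψlim g))
      simpa using this
  rw [integral_zero] at hlim
  have hre : Tendsto (fun k => nsq F (ψ k)) atTop (𝓝 0) := by
    have h0 : Tendsto (fun k => (∫ g in F.D, ψ k g * (starRingEnd ℂ) (ψ k g) ∂F.μ).re) atTop
        (𝓝 ((0 : ℂ).re)) := (Complex.continuous_re.tendsto 0).comp hlim
    rw [Complex.zero_re] at h0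
    exact h0
  obtain ⟨k, hk⟩ := ((tendsto_order.1 hre).2 ε hε).exists
  exact ⟨apx907 F 𝔫 (η k), isSphTestFn_testFn907 h𝔫 (hηpos k) (hη1 k) _,
    adj_testFn907 𝔫 (η k) _, hk⟩

/-- **T2.06 `Leaf06`** (frozen Prop of `T2/Spec.lean`). -/
theorem leaf06_h907 (K : Type) [Field K] [NumberField K] : Leaf06 K :=
  fun _ _ h𝔫 _ hC => approxId_h907 h𝔫 hC

end Fermat.Agent.LT.T2.H907

end
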